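import Fermat.Agent.Conductor.Residual
import Fermat.Prelude.Def_FLTPrelim_ModularRep
import Fermat.Prelude.Def_FLTPrelim_Ramification
import Fermat.Prelude.Def_WeierstrassCurve_PeuRamifiee

/-!
# The steps of modularity lifting at 3 and 5, as propositions

They are combined in `FermatAgent.Wiring.Final.modularityLifting`.
-/

set_option autoImplicit false

open WeierstrassCurve CongruenceSubgroup ModularFormClass

noncomputable section

namespace FermatAgent.RTLift.Finish

/-- `E[p]` is unramified at `q`. -/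
def UnramifiedMod (W : WeierstrassCurve ℤ) (p q : ℕ) : Prop :=
  Affine.Point.GaloisRepUnramifiedAt (K := AlgebraicClosure ℚ) ℚ (W.map (Int.castRingHom ℚ)) p q

/-- `E[p]` is flat at `p` (good reduction, or multiplicative with `p ∣ v_p(Δ)`). -/
def FlatMod (W : WeierstrassCurve ℤ) (p : ℕ) : Prop :=
  (W.map (Int.castRingHom ℚ)).IsPeuRamifieeAt p p

/-- The image of Galois on `E[p]` is all of `GL₂(𝔽_p)`. -/
def FullImage (W : WeierstrassCurve ℤ) (p : ℕ) [Fact p.Prime] : Prop :=
  ∀ (hΔ : (W.map (Int.castRingHom ℚ)).Δ ≠ 0)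
    (f : Module.End (ZMod p) (Conductor.torsionRep W (p := p) hΔ).V), IsUnit f →
      ∃ σ, (Conductor.torsionRep W (p := p) hΔ).ρ σ = f

/-- Standing hypotheses on the curve. -/
structure Setting (W : WeierstrassCurve ℤ) (p : ℕ) : Prop where
  prime_three_five : p = 3 ∨ p = 5
  disc_ne_zero : W.Δ ≠ 0
  semistable : W.IsSemistableModel
  irreducible : W.ModRepIsIrreducible p

/-- A residual system at a squarefree level. -/
def SqLoweringStep : Prop :=
  ∀ (W : WeierstrassCurve ℤ) (p : ℕ), Setting W p → ∀ (M₀ : ℕ) [NeZero M₀],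
    W.IsResiduallyModularOfLevel p M₀ → ¬ p ^ 2 ∣ M₀ →
    (∀ q : ℕ, q.Prime → q ≠ p → ¬ q ^ 3 ∣ M₀) →
    ∃ M : ℕ, Squarefree M ∧ W.IsResiduallyModularOfLevel p M

/-- Minimal lifting: from a minimal residual system with full image, a
form of squarefree level with the eigenvalues of the curve away from a finite set of primes
(level `N_W`, or `N_W r` with an auxiliary prime `r`). -/
def MinimalLiftingStep : Prop :=
  ∀ (W : WeierstrassCurve ℤ) (p : ℕ) [Fact p.Prime], Setting W p → FullImage W p →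
    ∀ M : ℕ, Squarefree M → W.IsResiduallyModularOfLevel p M →
      (∀ q : ℕ, q.Prime → q ∣ M → q ≠ p → ¬ UnramifiedMod W p q) →
      (p ∣ M → ¬ FlatMod W p) →
      ∃ (N : ℕ) (f : CuspForm (Gamma0 N) 2) (B : Finset ℕ), Squarefree N ∧
        f.IsNormalizedEigenform ∧
        ∀ ℓ : ℕ, ℓ.Prime → ℓ ∉ B → qCoeff f ℓ = (W.apOfModel ℓ : ℂ)

/-- The image lemma at 3 and 5. -/
def ImageStep : Prop :=
  ∀ (W : WeierstrassCurve ℤ) (p : ℕ) [Fact p.Prime], Setting W p → FullImage W p

end FermatAgent.RTLift.Finish
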