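import Fermat.Agent.RTLift.Finish.Interface
import Fermat.Agent.Conductor.Main
import Fermat.Agent.Local.GoodReduction
import Fermat.Prelude.Def_WeierstrassCurve_Mlc1RowStatement

/-!
# Modularity at the conductor from a form of squarefree level

The newform under a form with the eigenvalues of the curve at almost all primes has the conductor
as level, and its coefficients at all good primes come from Tate modules.
-/

set_option autoImplicit false

open WeierstrassCurve CongruenceSubgroup ModularFormClass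

noncomputable section

namespace FermatAgent.RTLift.Finish

variable {W : WeierstrassCurve ℤ} {p : ℕ}

/-- A form of squarefree level with the eigenvalues of the curve at almost all primes gives
modularity at the conductor. -/
theorem modular_conductor_of_almost_all (h30 : Conductor.PointInput)
    (h35 : Conductor.SteinbergInput) (hΔ0 : W.Δ ≠ 0) (hss : W.IsSemistableModel) {N : ℕ}
    (hN : Squarefree N) {f : CuspForm (Gamma0 N) 2} (hf : f.IsNormalizedEigenform) (B : Finset ℕ)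
    (hfa : ∀ ℓ : ℕ, ℓ.Prime → ℓ ∉ B → qCoeff f ℓ = (W.apOfModel ℓ : ℂ)) :
    Mlc1IsModularModelOfExactConductorLevel W := by
  have hΔ : (W.map (Int.castRingHom ℚ)).Δ ≠ 0 := by
    rw [WeierstrassCurve.map_Δ, eq_intCast]; exact_mod_cast hΔ0
  obtain ⟨M, hM0, hMN, g, hg, hga'⟩ := Conductor.exists_newform_of_eigenform hN.ne_zero hf
  have : NeZero M := ⟨hM0⟩
  set B' := B.filter Nat.Prime with hB'
  set L := N * W.Δ.natAbs * ∏ q ∈ B', q with hLdef
  have hprod : ∀ q ∈ B', q ≠ 0 := fun q hq => (Finset.mem_filter.1 hq).2.ne_zero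
  have hL0 : L ≠ 0 := mul_ne_zero (mul_ne_zero hN.ne_zero (Int.natAbs_ne_zero.2 hΔ0))
    (Finset.prod_ne_zero_iff.2 hprod)
  have hga : ∀ ℓ : ℕ, ℓ.Prime → ¬ ℓ ∣ L → qCoeff g ℓ = (W.apOfModel ℓ : ℂ) := by
    intro ℓ hℓ hℓL
    have hℓN : ¬ ℓ ∣ N := fun h => hℓL ((dvd_mul_of_dvd_left h _).mul_right _)
    refine (hga' ℓ hℓ hℓN).trans (hfa ℓ hℓ fun h => hℓL (dvd_mul_of_dvd_right ?_ _))
    exact Finset.dvd_prod_of_mem _ (Finset.mem_filter.2 ⟨h, hℓ⟩)
  have hbad : ∀ ℓ : ℕ, ℓ.Prime → (ℓ : ℤ) ∣ W.Δ → ℓ ∣ L := fun ℓ _ h =>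
    (dvd_mul_of_dvd_right (Int.natCast_dvd.1 h) _).mul_right _
  have hML : M ∣ L := (dvd_mul_of_dvd_left hMN _).mul_right _
  have hMsq : Squarefree M := hN.squarefree_of_dvd hMN
  have hsq : ∀ q : ℕ, q.Prime → ¬ q ^ 2 ∣ M := fun q hq h =>
    hq.not_isUnit (hMsq q (by rwa [sq] at h))
  exact ⟨M, Nat.pos_of_ne_zero hM0, hMsq, fun q hq =>
    ⟨fun h => Conductor.bad_of_dvd_not_sq_dvd hΔ hL0 hga hbad hML h35 hg hq h (hsq q hq),
      fun h => Conductor.dvd_level_of_bad hΔ hL0 hga hbad hML h30 hg.1 hss hq h⟩,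
    g, hg.1, fun q hq hgood hqM =>
      Conductor.qCoeff_eq_apOfModel hΔ hL0 hga hbad hML h30 hg.1 hq hgood hqM⟩

end FermatAgent.RTLift.Finish
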